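import Mathlib
import Fermat.Agent.S24.Mod
import Fermat.Agent.S24.Alg
import Fermat.Agent.S24.FFDegree
import Fermat.Agent.S24.FFFinite
import Fermat.Agent.S24.H117.EmbPlace
import Fermat.Agent.Lib.RR.Defs

/-!
# S18 / T2 (helper65): function-field basics of `F_N = modularFunctionFieldBar N` over `ℚ̄`

Exact statements (all sorry-free, from the landed S24 FF layer + `nonempty_modularPackage`):

* `const_of_ord_zero`  (generic, `K` alg. closed, char 0, `F` finite over `K(x)`):
    `(∀ v : Place K F, v.ord u = 0) → ∃ c : K, u = algebraMap K F c`
* `constOfOrdZero_bar N` :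
    `∀ u : modularFunctionFieldBar N, u ≠ 0 → (∀ v, v.ord u = 0) → ∃ c, u = algebraMap _ _ c`
  (= `ConstOfOrdZero ℚ̄ (modularFunctionFieldBar N)` of helper94 / CONST_F of the row plan)
* `hasPrincipalDivisors_bar N`, `ff1_bar N : Lib.RR.FF1 ℚ̄ (modularFunctionFieldBar N)`.
-/

set_option autoImplicit false

open AlgebraicCurve ModularCurve IntermediateField

namespace Fermat.Agent.S18.H65

open Fermat.Agent.S24

section Generic

variable {K F : Type*} [Field K] [Field F] [Algebra K F] [IsAlgClosed K] [CharZero K]

/-- A function without poles is constant (function field of one variable over an algebraically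
closed field of characteristic zero). -/
theorem const_of_ord_nonneg {x : F} (hx : Transcendental K x) [FiniteDimensional K⟮x⟯ F]
    (u : F) (hu : ∀ v : Place K F, 0 ≤ v.ord u) : ∃ c : K, u = algebraMap K F c := by
  by_contra hc
  have hur : u ∉ (algebraMap K F).range := fun ⟨c, h⟩ => hc ⟨c, h.symm⟩
  have hut : Transcendental K u := FF.transcendental_of_not_mem_range hur
  haveI : FiniteDimensional K⟮u⟯ F := FF.finiteDimensional_adjoin_of_transcendental hx hut
  have h := FF.sum_ord_neg_eq_neg_finrank hut (∅ : Finset (Place K F))
    (fun v => by simpa using hu v)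
  have hpos : 0 < Module.finrank K⟮u⟯ F := Module.finrank_pos
  simp only [Finset.sum_empty] at h
  omega

/-- A function without zeros and poles is constant. -/
theorem const_of_ord_zero {x : F} (hx : Transcendental K x) [FiniteDimensional K⟮x⟯ F]
    (u : F) (hu : ∀ v : Place K F, v.ord u = 0) : ∃ c : K, u = algebraMap K F c :=
  const_of_ord_nonneg hx u fun v => (hu v).ge

/-- Every nonzero function has a divisor, of degree zero. -/
theorem hasPrincipalDivisors_of_finite {x : F} (hx : Transcendental K x)
    [FiniteDimensional K⟮x⟯ F] : HasPrincipalDivisors K F := by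
  classical
  refine ⟨fun f _ => ?_⟩
  have hfin : {v : Place K F | v.ord f ≠ 0}.Finite := by
    by_cases hfr : f ∈ (algebraMap K F).range
    · obtain ⟨a, rfl⟩ := hfr
      convert Set.finite_empty
      ext v
      simp only [Set.mem_setOf_eq, Set.mem_empty_iff_false, iff_false, not_not]
      exact FF.ord_algebraMap v a
    · have hft : Transcendental K f := FF.transcendental_of_not_mem_range hfr
      haveI : FiniteDimensional K⟮f⟯ F := FF.finiteDimensional_adjoin_of_transcendental hx hft
      exact FF.finite_setOf_ord_ne_zero hft
  let D : Divisor K F := Finsupp.ofSupportFinite (fun v => v.ord f) hfin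
  have hD : ∀ v : Place K F, D v = v.ord f := fun v => rfl
  exact ⟨D, hD, FF.degree_principal x hx f D hD⟩

end Generic

section Modular

variable (N : ℕ) [NeZero N]

theorem transcendental_jF : Transcendental Kbar (jF N) := by
  obtain ⟨P⟩ := nonempty_modularPackage N
  exact transcendental_of_localData_inv (jF N) P.dataInf

theorem finiteDimensional_jF : FiniteDimensional Kbar⟮jF N⟯ (FF N) :=
  (nonempty_modularPackage N).some.finiteDimensional

/-- CONST_F (T2 of the S18 row plan): a modular function of level `N` over `ℚ̄` without zeros and
poles is constant. -/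
theorem constOfOrdZero_bar :
    ∀ u : modularFunctionFieldBar N, u ≠ 0 →
      (∀ v : Place (AlgebraicClosure ℚ) (modularFunctionFieldBar N), v.ord u = 0) →
      ∃ c : AlgebraicClosure ℚ,
        u = algebraMap (AlgebraicClosure ℚ) (modularFunctionFieldBar N) c := by
  intro u _ hu
  haveI := finiteDimensional_jF N
  exact const_of_ord_zero (transcendental_jF N) u hu

theorem hasPrincipalDivisors_bar :
    HasPrincipalDivisors (AlgebraicClosure ℚ) (modularFunctionFieldBar N) := by
  haveI := finiteDimensional_jF N
  exact hasPrincipalDivisors_of_finite (transcendental_jF N)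

theorem deg_eq_one_bar (v : Place (AlgebraicClosure ℚ) (modularFunctionFieldBar N)) :
    v.deg = 1 := by
  haveI := finiteDimensional_jF N
  exact FF.deg_eq_one v (transcendental_jF N)

theorem nonempty_place_bar :
    Nonempty (Place (AlgebraicClosure ℚ) (modularFunctionFieldBar N)) := by
  obtain ⟨P⟩ := nonempty_modularPackage N
  exact ⟨H117.placeOf P.dataInf (QuotientGroup.mk 1)⟩

/-- The standing hypotheses `FF1` of the shared Riemann–Roch library hold for the function field
of `X₀(N)` over `ℚ̄`. -/
theorem ff1_bar : Fermat.Agent.Lib.RR.FF1 (AlgebraicClosure ℚ) (modularFunctionFieldBar N) where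
  hpd := hasPrincipalDivisors_bar N
  deg_eq_one := deg_eq_one_bar N
  nonempty_place := nonempty_place_bar N
  exists_finite := ⟨jF N, transcendental_jF N, finiteDimensional_jF N⟩

end Modular

end Fermat.Agent.S18.H65
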