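import Mathlib
import Fermat.Prelude.Def_ModularCurve_X0ModL
import Fermat.Agent.S28.H626.Upper
import Fermat.Agent.S28.H867.Core
import Fermat.Agent.S28.H807.Analytic

/-!
# S18 / squad S18/S05, piece MOD.1 (helper65): `k(j(q^d) : d ∣ N)` is finite over `k(j)`

`modFinite` is `Fermat.Agent.S18.Sq05.ModFiniteStatement` of the squad's frozen
`Sq05/Spec.lean` (in unfolded form; `jC k N` of the Spec is `⟨jqModC k, jqModC_mem_full k N⟩`):

  for every field `k` in which the primes dividing `N` are invertible,
  `j` is transcendental over `k` and `modularFunctionFieldFullC k N` is finite over `k(j)`.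

Also exported (characteristic-free, no hypothesis on `N`):

* `transcendental_jqModC k : Transcendental k (jqModC k)`  (in `k((q))`),
* `transcendental_subtype`, `finiteDimensional_adjoin_subtype` : transfer of transcendence and
  of finiteness over `k(x)` from the ambient field to an intermediate field.

Inputs: landed S28 (`H626.relrank_adjoin_j_full_le`, `H867.hasModPolys`,
`H807.nonempty_modPolyData`).
-/

set_option autoImplicit false

open ModularCurve IntermediateField Polynomial

namespace Fermat.Agent.S18.H65

section Transcendence

variable (k : Type*) [Field k]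

theorem coeff_algebraMap_mul_laurent (c : k) (f : LaurentSeries k) (m : ℤ) :
    (algebraMap k (LaurentSeries k) c * f).coeff m = c * f.coeff m := by
  rw [algebraMap_laurentSeries_eq_single, HahnSeries.coeff_single_zero_mul]

/-- The coefficient of `q^{-deg P}` in `P(j)` is the leading coefficient of `P`. -/
theorem coeff_aeval_jqModC (P : Polynomial k) :
    (aeval (jqModC k) P).coeff (-(P.natDegree : ℤ)) = P.leadingCoeff := by
  rw [aeval_def, eval₂_eq_sum_range, HahnSeries.coeff_sum]
  rw [Finset.sum_eq_single P.natDegree]
  · rw [coeff_algebraMap_mul_laurent, coeff_jqModC_pow_self, mul_one]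
    rfl
  · intro i hi hne
    have hlt : i < P.natDegree := by
      have := Finset.mem_range.mp hi
      omega
    rw [coeff_algebraMap_mul_laurent,
      coeff_jqModC_pow_of_lt k (by omega : -(P.natDegree : ℤ) < -(i : ℤ)), mul_zero]
  · intro h
    exact absurd (Finset.mem_range.mpr (Nat.lt_succ_self _)) h

/-- `j` is transcendental over `k` in `k((q))`, for every field `k`. -/
theorem transcendental_jqModC : Transcendental k (jqModC k) := by
  rw [Transcendental, IsAlgebraic]
  rintro ⟨P, hP0, hP⟩
  have h := coeff_aeval_jqModC k P
  rw [hP, HahnSeries.coeff_zero] at h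
  exact hP0 (leadingCoeff_eq_zero.mp h.symm)

end Transcendence

section Transfer

variable {k : Type*} [Field k] {L : Type*} [Field L] [Algebra k L]

/-- Transcendence passes from the ambient field to an intermediate field. -/
theorem transcendental_subtype (F : IntermediateField k L) (x : F)
    (hx : Transcendental k (x : L)) : Transcendental k x := by
  intro h
  exact hx ((isAlgebraic_algHom_iff F.val F.val.injective).mpr h)

/-- Finite-dimensionality of an intermediate field `F` over `k(x)`, `x ∈ F`, can be checked in the
ambient field (in `relrank` form). -/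
theorem finiteDimensional_adjoin_subtype (F : IntermediateField k L) (x : F)
    (h : IntermediateField.relrank (IntermediateField.adjoin k {(x : L)}) F < Cardinal.aleph0) :
    FiniteDimensional k⟮x⟯ F := by
  have h1 : (k⟮x⟯ : IntermediateField k F).map F.val = IntermediateField.adjoin k {(x : L)} := by
    rw [IntermediateField.adjoin_map, Set.image_singleton]
    rfl
  have h2 : (⊤ : IntermediateField k F).map F.val = F := by
    rw [← AlgHom.fieldRange_eq_map, IntermediateField.fieldRange_val]
  have h3 : IntermediateField.relrank (k⟮x⟯ : IntermediateField k F) ⊤ =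
      IntermediateField.relrank (IntermediateField.adjoin k {(x : L)}) F := by
    rw [← IntermediateField.relrank_map_map _ _ F.val, h1, h2]
  rw [IntermediateField.relrank_top_right] at h3
  rw [FiniteDimensional, ← Module.rank_lt_aleph0_iff, h3]
  exact h

end Transfer

section Modular

open Fermat.Agent.S28

/-- **MOD.1** (`Sq05.ModFiniteStatement`, unfolded). -/
theorem modFinite :
    ∀ (k : Type) [Field k] (N : ℕ) [NeZero N], (∀ p : ℕ, p.Prime → p ∣ N → (p : k) ≠ 0) →
      Transcendental k (⟨jqModC k, jqModC_mem_full k N⟩ : modularFunctionFieldFullC k N) ∧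
        FiniteDimensional
          k⟮(⟨jqModC k, jqModC_mem_full k N⟩ : modularFunctionFieldFullC k N)⟯
          (modularFunctionFieldFullC k N) := by
  intro k _ N _ hchar
  refine ⟨transcendental_subtype _ _ (transcendental_jqModC k),
    finiteDimensional_adjoin_subtype _ _ ?_⟩
  have H : H626.HasModPolys k N :=
    H867.hasModPolys k N (fun p hp _ _ => H807.nonempty_modPolyData p hp) hchar
  exact lt_of_le_of_lt (H626.relrank_adjoin_j_full_le N H) Cardinal.natCast_lt_aleph0

/-- The same for a universe-polymorphic field. -/
theorem modFinite' (k : Type*) [Field k] (N : ℕ) [NeZero N]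
    (hchar : ∀ p : ℕ, p.Prime → p ∣ N → (p : k) ≠ 0) :
    Transcendental k (⟨jqModC k, jqModC_mem_full k N⟩ : modularFunctionFieldFullC k N) ∧
      FiniteDimensional
        k⟮(⟨jqModC k, jqModC_mem_full k N⟩ : modularFunctionFieldFullC k N)⟯
        (modularFunctionFieldFullC k N) := by
  refine ⟨transcendental_subtype _ _ (transcendental_jqModC k),
    finiteDimensional_adjoin_subtype _ _ ?_⟩
  have H : H626.HasModPolys k N :=
    H867.hasModPolys k N (fun p hp _ _ => H807.nonempty_modPolyData p hp) hchar
  exact lt_of_le_of_lt (H626.relrank_adjoin_j_full_le N H) Cardinal.natCast_lt_aleph0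

end Modular

end Fermat.Agent.S18.H65
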